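import Mathlib
import Fermat.Agent.LT.T6.H189.ArchIntSpec
import Fermat.Agent.LT.T6.H189.ArchIntCut

/-!
# Row LT, tower T6, sub-leaf T6.23.10 `AbelAreaCC` (helper501) — OFF-MAIN

`abelAreaCC501 : T6.H189.AbelAreaCC` (bytes of `T6/H189/ArchIntCut.lean`, helper189):

    ∫∫ φ(cosh s + e^s |w|² / 2) dw ds = 4π ∫_{d > 0} φ(cosh d) sinh² d dd

as an identity of measures on `ℝ`.

Proof (all with `lintegral`, so no integrability is needed).  Polar coordinates in `ℂ`, then the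
substitution `ρ = cosh s + e^s r² / 2` in `r`: the inner integral is `2π e^{-s} ∫_{ρ > cosh s} φ`.
Tonelli: the left side is `2π ∫ φ(ρ) m(ρ) dρ` with `m(ρ) = ∫_{cosh s < ρ} e^{-s} ds`, which vanishes
for `ρ ≤ 1`.  Substitution `ρ = cosh d` on `d > 0` and `m(cosh d) = ∫_{-d}^{d} e^{-s} ds = 2 sinh d`.
-/

set_option autoImplicit false

open MeasureTheory
open scoped ENNReal

noncomputable section

namespace Fermat.Agent.LT.H501.Ab

/-! ## The substitution in `r` -/

/-- `r ↦ cosh s + e^s r² / 2`. -/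
def hS (s r : ℝ) : ℝ := Real.cosh s + Real.exp s * r ^ 2 / 2

lemma hS_hasDerivAt (s r : ℝ) : HasDerivAt (hS s) (Real.exp s * r) r := by
  have h1 : HasDerivAt (fun r : ℝ => r ^ 2) (2 * r) r := by
    simpa using hasDerivAt_pow 2 r
  have h2 : HasDerivAt (fun r : ℝ => Real.exp s * r ^ 2 / 2) (Real.exp s * (2 * r) / 2) r :=
    (h1.const_mul (Real.exp s)).div_const 2
  have h3 := h2.const_add (Real.cosh s)
  have e : Real.exp s * (2 * r) / 2 = Real.exp s * r := by ring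
  rw [e] at h3
  exact h3

lemma hS_lt {s r₁ r₂ : ℝ} (h₁ : 0 ≤ r₁) (h : r₁ < r₂) : hS s r₁ < hS s r₂ := by
  unfold hS
  have hsq : r₁ ^ 2 < r₂ ^ 2 := by nlinarith
  have he : 0 < Real.exp s := Real.exp_pos s
  have : Real.exp s * r₁ ^ 2 < Real.exp s * r₂ ^ 2 := mul_lt_mul_of_pos_left hsq he
  linarith

lemma hS_injOn (s : ℝ) : Set.InjOn (hS s) (Set.Ioi 0) := by
  intro a ha b hb hab
  rcases lt_trichotomy a b with h | h | h
  · exact absurd hab (hS_lt (le_of_lt ha) h).ne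
  · exact h
  · exact absurd hab (hS_lt (le_of_lt hb) h).ne'

lemma hS_image (s : ℝ) : hS s '' Set.Ioi 0 = Set.Ioi (Real.cosh s) := by
  ext ρ
  constructor
  · rintro ⟨r, hr, rfl⟩
    have h0 : hS s 0 = Real.cosh s := by simp [hS]
    have := hS_lt (s := s) (le_refl 0) hr
    rw [h0] at this
    exact this
  · intro hρ
    have hρ' : Real.cosh s < ρ := hρ
    have he : 0 < Real.exp s := Real.exp_pos s
    have hpos : 0 < 2 * (ρ - Real.cosh s) / Real.exp s := by
      apply div_pos _ he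
      linarith
    refine ⟨Real.sqrt (2 * (ρ - Real.cosh s) / Real.exp s), Real.sqrt_pos.2 hpos, ?_⟩
    unfold hS
    rw [Real.sq_sqrt hpos.le]
    field_simp
    ring

/-- The substitution `ρ = cosh s + e^s r² / 2`. -/
lemma lintegral_subst_r (φ : ℝ → ℝ≥0∞) (s : ℝ) :
    ∫⁻ r in Set.Ioi (0 : ℝ), ENNReal.ofReal r * φ (hS s r)
      = ENNReal.ofReal (Real.exp (-s)) * ∫⁻ ρ in Set.Ioi (Real.cosh s), φ ρ := by
  have h := lintegral_image_eq_lintegral_abs_deriv_mul (s := Set.Ioi (0 : ℝ)) (f := hS s)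
    (f' := fun r => Real.exp s * r) measurableSet_Ioi
    (fun r _ => (hS_hasDerivAt s r).hasDerivWithinAt) (hS_injOn s) φ
  rw [hS_image] at h
  rw [h, ← lintegral_const_mul' _ _ ENNReal.ofReal_ne_top]
  apply setLIntegral_congr_fun measurableSet_Ioi
  intro r hr
  have hr' : (0 : ℝ) < r := hr
  have he : 0 < Real.exp s := Real.exp_pos s
  show ENNReal.ofReal r * φ (hS s r)
    = ENNReal.ofReal (Real.exp (-s)) * (ENNReal.ofReal |Real.exp s * r| * φ (hS s r))
  rw [abs_of_pos (mul_pos he hr'), ← mul_assoc, ← ENNReal.ofReal_mul (Real.exp_pos _).le,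
    ← mul_assoc, ← Real.exp_add, neg_add_cancel, Real.exp_zero, one_mul]

/-! ## Polar coordinates in `ℂ` -/

lemma continuous_hS (s : ℝ) : Continuous (hS s) := by
  unfold hS
  fun_prop

/-- The inner integral in polar coordinates. -/
lemma lintegral_inner {φ : ℝ → ℝ≥0∞} (hφ : Measurable φ) (s : ℝ) :
    ∫⁻ w : ℂ, φ (hS s ‖w‖)
      = ENNReal.ofReal (2 * Real.pi) * ∫⁻ r in Set.Ioi (0 : ℝ), ENNReal.ofReal r * φ (hS s r) := by
  rw [← Complex.lintegral_comp_polarCoord_symm]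
  have h1 : ∫⁻ p in polarCoord.target,
        ENNReal.ofReal p.1 • φ (hS s ‖Complex.polarCoord.symm p‖)
      = ∫⁻ p in polarCoord.target, ENNReal.ofReal p.1 * φ (hS s p.1) := by
    apply setLIntegral_congr_fun polarCoord.open_target.measurableSet
    intro p hp
    have hp1 : 0 < p.1 := by
      rw [polarCoord_target] at hp
      exact hp.1
    show ENNReal.ofReal p.1 • φ (hS s ‖Complex.polarCoord.symm p‖) = _
    rw [Complex.norm_polarCoord_symm, abs_of_pos hp1, smul_eq_mul]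
  have hmeas : Measurable (fun p : ℝ × ℝ => ENNReal.ofReal p.1 * φ (hS s p.1)) :=
    (ENNReal.measurable_ofReal.comp measurable_fst).mul
      (hφ.comp ((continuous_hS s).measurable.comp measurable_fst))
  rw [h1, polarCoord_target, Measure.volume_eq_prod, ← Measure.prod_restrict,
    lintegral_prod _ hmeas.aemeasurable]
  rw [← lintegral_const_mul' _ _ ENNReal.ofReal_ne_top]
  apply lintegral_congr
  intro r
  show ∫⁻ _ in Set.Ioo (-Real.pi) Real.pi, ENNReal.ofReal r * φ (hS s r)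
    = ENNReal.ofReal (2 * Real.pi) * (ENNReal.ofReal r * φ (hS s r))
  rw [lintegral_const, Measure.restrict_apply MeasurableSet.univ, Set.univ_inter,
    Real.volume_Ioo, mul_comm]
  congr 2
  ring

/-! ## The sections `{s | cosh s < ρ}` -/

/-- `m(ρ) = ∫_{cosh s < ρ} e^{-s} ds`. -/
def mfun (ρ : ℝ) : ℝ≥0∞ :=
  ∫⁻ s : ℝ, ({s : ℝ | Real.cosh s < ρ}).indicator (fun s => ENNReal.ofReal (Real.exp (-s))) s

lemma measurableSet_section (ρ : ℝ) : MeasurableSet {s : ℝ | Real.cosh s < ρ} :=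
  (isOpen_lt Real.continuous_cosh continuous_const).measurableSet

lemma mfun_of_le_one {ρ : ℝ} (hρ : ρ ≤ 1) : mfun ρ = 0 := by
  unfold mfun
  have h : {s : ℝ | Real.cosh s < ρ} = ∅ := by
    ext s
    simp only [Set.mem_ofPred_eq, Set.mem_empty_iff_false, iff_false, not_lt]
    exact le_trans hρ (Real.one_le_cosh s)
  rw [h]
  simp

lemma section_cosh {d : ℝ} (hd : 0 < d) : {s : ℝ | Real.cosh s < Real.cosh d} = Set.Ioo (-d) d := by
  ext s
  simp only [Set.mem_ofPred_eq, Set.mem_Ioo]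
  rw [Real.cosh_lt_cosh, abs_of_pos hd, abs_lt]

lemma mfun_cosh {d : ℝ} (hd : 0 < d) : mfun (Real.cosh d) = ENNReal.ofReal (2 * Real.sinh d) := by
  unfold mfun
  rw [section_cosh hd, lintegral_indicator measurableSet_Ioo]
  have hint : IntegrableOn (fun s : ℝ => Real.exp (-s)) (Set.Ioo (-d) d) := by
    have hc : Continuous (fun s : ℝ => Real.exp (-s)) := Real.continuous_exp.comp continuous_neg
    exact (hc.integrableOn_Icc (a := -d) (b := d)).mono_set Set.Ioo_subset_Icc_self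
  rw [← ofReal_integral_eq_lintegral_ofReal hint
    (Filter.Eventually.of_forall fun s => (Real.exp_pos _).le)]
  congr 1
  have hle : -d ≤ d := by linarith
  rw [← integral_Ioc_eq_integral_Ioo, ← intervalIntegral.integral_of_le hle]
  have h := intervalIntegral.integral_comp_neg (a := -d) (b := d) (f := fun s : ℝ => Real.exp s)
  simp only [neg_neg] at h
  rw [h, integral_exp, Real.sinh_eq]
  ring

/-! ## Tonelli -/

lemma measurableSet_region : MeasurableSet {p : ℝ × ℝ | Real.cosh p.1 < p.2} :=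
  (isOpen_lt (Real.continuous_cosh.comp continuous_fst) continuous_snd).measurableSet

/-- Tonelli: `∫ e^{-s} ∫_{ρ > cosh s} φ(ρ) dρ ds = ∫ φ(ρ) m(ρ) dρ`. -/
lemma lintegral_swap {φ : ℝ → ℝ≥0∞} (hφ : Measurable φ) :
    ∫⁻ s : ℝ, ENNReal.ofReal (Real.exp (-s)) * ∫⁻ ρ in Set.Ioi (Real.cosh s), φ ρ
      = ∫⁻ ρ : ℝ, φ ρ * mfun ρ := by
  obtain ⟨G, hG⟩ : ∃ G : ℝ → ℝ → ℝ≥0∞, G = fun s ρ =>
      ({p : ℝ × ℝ | Real.cosh p.1 < p.2}).indicator
        (fun p : ℝ × ℝ => ENNReal.ofReal (Real.exp (-p.1)) * φ p.2) (s, ρ) := ⟨_, rfl⟩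
  have hGm : Measurable (Function.uncurry G) := by
    have h : Function.uncurry G = ({p : ℝ × ℝ | Real.cosh p.1 < p.2}).indicator
        (fun p : ℝ × ℝ => ENNReal.ofReal (Real.exp (-p.1)) * φ p.2) := by
      funext p
      rw [hG]
      rfl
    rw [h]
    apply Measurable.indicator _ measurableSet_region
    exact (ENNReal.measurable_ofReal.comp
      ((Real.continuous_exp.comp continuous_neg).measurable.comp measurable_fst)).mul
      (hφ.comp measurable_snd)
  have hL : ∀ s : ℝ, ENNReal.ofReal (Real.exp (-s)) * ∫⁻ ρ in Set.Ioi (Real.cosh s), φ ρ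
      = ∫⁻ ρ : ℝ, G s ρ := by
    intro s
    rw [← lintegral_const_mul _ hφ, ← lintegral_indicator measurableSet_Ioi]
    apply lintegral_congr
    intro ρ
    rw [hG]
    by_cases h : Real.cosh s < ρ
    · have h1 : ρ ∈ Set.Ioi (Real.cosh s) := h
      have h2 : (s, ρ) ∈ {p : ℝ × ℝ | Real.cosh p.1 < p.2} := h
      rw [Set.indicator_of_mem h1]
      show _ = ({p : ℝ × ℝ | Real.cosh p.1 < p.2}).indicator _ (s, ρ)
      rw [Set.indicator_of_mem h2]
    · have h1 : ρ ∉ Set.Ioi (Real.cosh s) := h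
      have h2 : (s, ρ) ∉ {p : ℝ × ℝ | Real.cosh p.1 < p.2} := h
      rw [Set.indicator_of_notMem h1]
      show _ = ({p : ℝ × ℝ | Real.cosh p.1 < p.2}).indicator _ (s, ρ)
      rw [Set.indicator_of_notMem h2]
  have hR : ∀ ρ : ℝ, ∫⁻ s : ℝ, G s ρ = φ ρ * mfun ρ := by
    intro ρ
    unfold mfun
    have hm : Measurable (({s : ℝ | Real.cosh s < ρ}).indicator
        (fun s : ℝ => ENNReal.ofReal (Real.exp (-s)))) :=
      Measurable.indicator (ENNReal.measurable_ofReal.comp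
        (Real.continuous_exp.comp continuous_neg).measurable) (measurableSet_section ρ)
    rw [← lintegral_const_mul _ hm]
    apply lintegral_congr
    intro s
    rw [hG]
    by_cases h : Real.cosh s < ρ
    · have h1 : s ∈ {s : ℝ | Real.cosh s < ρ} := h
      have h2 : (s, ρ) ∈ {p : ℝ × ℝ | Real.cosh p.1 < p.2} := h
      show ({p : ℝ × ℝ | Real.cosh p.1 < p.2}).indicator _ (s, ρ) = _
      rw [Set.indicator_of_mem h1, Set.indicator_of_mem h2, mul_comm]
    · have h1 : s ∉ {s : ℝ | Real.cosh s < ρ} := h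
      have h2 : (s, ρ) ∉ {p : ℝ × ℝ | Real.cosh p.1 < p.2} := h
      show ({p : ℝ × ℝ | Real.cosh p.1 < p.2}).indicator _ (s, ρ) = _
      rw [Set.indicator_of_notMem h1, Set.indicator_of_notMem h2, mul_zero]
  simp only [hL]
  rw [lintegral_lintegral_swap hGm.aemeasurable]
  simp only [hR]

/-! ## The substitution `ρ = cosh d` -/

lemma cosh_image_Ioi : Real.cosh '' Set.Ioi 0 = Set.Ioi 1 := by
  ext ρ
  constructor
  · rintro ⟨d, hd, rfl⟩
    have hd' : (0 : ℝ) < d := hd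
    exact Real.one_lt_cosh.2 hd'.ne'
  · intro hρ
    have hρ' : (1 : ℝ) < ρ := hρ
    exact ⟨Real.arcosh ρ, Real.arcosh_pos hρ', Real.cosh_arcosh hρ'.le⟩

lemma cosh_injOn_Ioi : Set.InjOn Real.cosh (Set.Ioi 0) :=
  Real.cosh_injOn.mono Set.Ioi_subset_Ici_self

/-- `∫ φ(ρ) m(ρ) dρ = 2 ∫_{d > 0} φ(cosh d) sinh² d dd`. -/
lemma lintegral_mfun (φ : ℝ → ℝ≥0∞) :
    ∫⁻ ρ : ℝ, φ ρ * mfun ρ
      = ∫⁻ d in Set.Ioi (0 : ℝ), ENNReal.ofReal 2 *
          (ENNReal.ofReal (Real.sinh d ^ 2) * φ (Real.cosh d)) := by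
  have h0 : (fun ρ : ℝ => φ ρ * mfun ρ) = (Set.Ioi (1 : ℝ)).indicator (fun ρ => φ ρ * mfun ρ) := by
    funext ρ
    by_cases h : ρ ∈ Set.Ioi (1 : ℝ)
    · rw [Set.indicator_of_mem h]
    · rw [Set.indicator_of_notMem h]
      have hle : ρ ≤ 1 := not_lt.1 h
      rw [mfun_of_le_one hle, mul_zero]
  rw [h0, lintegral_indicator measurableSet_Ioi, ← cosh_image_Ioi,
    lintegral_image_eq_lintegral_abs_deriv_mul (s := Set.Ioi (0 : ℝ)) (f := Real.cosh)
      (f' := Real.sinh) measurableSet_Ioi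
      (fun d _ => (Real.hasDerivAt_cosh d).hasDerivWithinAt) cosh_injOn_Ioi]
  apply setLIntegral_congr_fun measurableSet_Ioi
  intro d hd
  have hd' : (0 : ℝ) < d := hd
  have hs : 0 < Real.sinh d := Real.sinh_pos_iff.2 hd'
  show ENNReal.ofReal |Real.sinh d| * (φ (Real.cosh d) * mfun (Real.cosh d))
    = ENNReal.ofReal 2 * (ENNReal.ofReal (Real.sinh d ^ 2) * φ (Real.cosh d))
  rw [mfun_cosh hd', abs_of_pos hs, ENNReal.ofReal_mul (by norm_num : (0 : ℝ) ≤ 2), sq,
    ENNReal.ofReal_mul hs.le]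
  ring

/-! ## The sub-leaf -/

/-- **Sub-leaf T6.23.10 `AbelAreaCC`**, verbatim (bytes of `T6/H189/ArchIntCut.lean`). -/
theorem abelAreaCC501 : Fermat.Agent.LT.T6.H189.AbelAreaCC := by
  unfold Fermat.Agent.LT.T6.H189.AbelAreaCC
  refine Measure.ext_of_lintegral _ fun φ hφ => ?_
  have hF : Measurable (fun p : ℝ × ℂ => Real.cosh p.1 + Real.exp p.1 * ‖p.2‖ ^ 2 / 2) := by
    fun_prop
  -- the left side
  have hLeft : ∫⁻ x, φ x ∂(Measure.map
        (fun p : ℝ × ℂ => Real.cosh p.1 + Real.exp p.1 * ‖p.2‖ ^ 2 / 2)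
        (volume : Measure (ℝ × ℂ)))
      = ENNReal.ofReal (2 * Real.pi) * ∫⁻ ρ : ℝ, φ ρ * mfun ρ := by
    have hm : Measurable (fun p : ℝ × ℂ =>
        φ (Real.cosh p.1 + Real.exp p.1 * ‖p.2‖ ^ 2 / 2)) := hφ.comp hF
    rw [lintegral_map hφ hF, Measure.volume_eq_prod, lintegral_prod _ hm.aemeasurable]
    have h1 : ∀ s : ℝ, ∫⁻ w : ℂ, φ (Real.cosh (s, w).1 + Real.exp (s, w).1 * ‖(s, w).2‖ ^ 2 / 2)
        = ENNReal.ofReal (2 * Real.pi) *
          (ENNReal.ofReal (Real.exp (-s)) * ∫⁻ ρ in Set.Ioi (Real.cosh s), φ ρ) := by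
      intro s
      have := lintegral_inner hφ s
      rw [lintegral_subst_r] at this
      exact this
    simp only [h1]
    rw [lintegral_const_mul' _ _ ENNReal.ofReal_ne_top, lintegral_swap hφ]
  -- the right side
  have hRight : ∫⁻ x, φ x ∂(ENNReal.ofReal (4 * Real.pi) •
        Measure.map Real.cosh Fermat.Agent.LT.T6.H189.radMC)
      = ENNReal.ofReal (4 * Real.pi) *
          ∫⁻ d in Set.Ioi (0 : ℝ), ENNReal.ofReal (Real.sinh d ^ 2) * φ (Real.cosh d) := by
    have hm1 : Measurable (fun t : ℝ => ENNReal.ofReal (Real.sinh t ^ 2)) :=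
      ENNReal.measurable_ofReal.comp ((Real.continuous_sinh.pow 2).measurable)
    have hm2 : Measurable (fun a : ℝ => φ (Real.cosh a)) := hφ.comp Real.measurable_cosh
    rw [lintegral_smul_measure, lintegral_map hφ Real.measurable_cosh, smul_eq_mul]
    unfold Fermat.Agent.LT.T6.H189.radMC
    rw [lintegral_withDensity_eq_lintegral_mul _ hm1 hm2]
    rfl
  rw [hLeft, hRight, lintegral_mfun, lintegral_const_mul' _ _ ENNReal.ofReal_ne_top, ← mul_assoc,
    ← ENNReal.ofReal_mul (by positivity)]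
  congr 2
  ring

end Fermat.Agent.LT.H501.Ab

end
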