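import Mathlib

/-!
# Row LT, tower T6, sub-leaf T6.20a.7 `RadInt0C626`: the core (helper501) — OFF-MAIN, Mathlib only

    ∫∫ Φ(√(A² + α x² + β v²)) / √(A² + α x² + β v²) dv dx = (2π / √(αβ)) ∫_{X > A} Φ(X) dX

for `Φ` continuous, zero on `(R, ∞)`, and `A, α, β > 0`.

Proof.  Rescale `x` and `v` (`Measure.integral_comp_mul_left`, no integrability), Fubini for the
continuous compactly supported function `p ↦ h(p.1² + p.2²)`, the measure preserving equivalence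
`ℂ ≃ ℝ × ℝ`, `integral_fun_norm_addHaar` on `ℂ` (radial functions) and the substitution
`X = √(A² + r²)` (`integral_image_eq_integral_abs_deriv_smul`).
-/

set_option autoImplicit false

open MeasureTheory

noncomputable section

namespace Fermat.Agent.LT.H501.Rad

/-- `h(t) = Φ(√(A² + t)) / √(A² + t)`. -/
def hfun (Φ : ℝ → ℂ) (A t : ℝ) : ℂ :=
  Φ (Real.sqrt (A ^ 2 + t)) / ((Real.sqrt (A ^ 2 + t) : ℝ) : ℂ)

lemma sqrt_pos_of {A t : ℝ} (hA : 0 < A) (ht : 0 ≤ t) : 0 < Real.sqrt (A ^ 2 + t) := by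
  apply Real.sqrt_pos.2
  positivity

lemma continuous_hfun_comp {Φ : ℝ → ℂ} (hΦ : Continuous Φ) {A : ℝ} (hA : 0 < A)
    {X : Type*} [TopologicalSpace X] {q : X → ℝ} (hq : Continuous q) (hq0 : ∀ x, 0 ≤ q x) :
    Continuous (fun x => hfun Φ A (q x)) := by
  unfold hfun
  have h1 : Continuous (fun x => Real.sqrt (A ^ 2 + q x)) :=
    Real.continuous_sqrt.comp (continuous_const.add hq)
  refine (hΦ.comp h1).div (Complex.continuous_ofReal.comp h1) (fun x => ?_)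
  have := sqrt_pos_of hA (hq0 x)
  exact_mod_cast this.ne'

lemma hfun_eq_zero {Φ : ℝ → ℂ} {R : ℝ} (hR : ∀ X : ℝ, R < X → Φ X = 0) {A t : ℝ}
    (ht : R ^ 2 < t) (_hR0 : 0 ≤ R) : hfun Φ A t = 0 := by
  unfold hfun
  have h : R < Real.sqrt (A ^ 2 + t) := by
    apply Real.lt_sqrt_of_sq_lt
    nlinarith [sq_nonneg A]
  rw [hR _ h, zero_div]

/-! ## Rescaling -/

lemma integral_rescale (g : ℝ → ℝ → ℂ) {α β : ℝ} (hα : 0 < α) (hβ : 0 < β) :
    ∫ x : ℝ, ∫ v : ℝ, g (Real.sqrt α * x) (Real.sqrt β * v)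
      = (((Real.sqrt (α * β))⁻¹ : ℝ) : ℂ) * ∫ y : ℝ, ∫ v : ℝ, g y v := by
  have hsα : 0 < Real.sqrt α := Real.sqrt_pos.2 hα
  have hsβ : 0 < Real.sqrt β := Real.sqrt_pos.2 hβ
  have h1 : ∀ x : ℝ, ∫ v : ℝ, g (Real.sqrt α * x) (Real.sqrt β * v)
      = |(Real.sqrt β)⁻¹| • ∫ v : ℝ, g (Real.sqrt α * x) v := fun x =>
    Measure.integral_comp_mul_left (fun v => g (Real.sqrt α * x) v) (Real.sqrt β)
  simp only [h1]
  rw [integral_smul]
  have h2 := Measure.integral_comp_mul_left (fun y => ∫ v : ℝ, g y v) (Real.sqrt α)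
  rw [h2, abs_of_pos (inv_pos.2 hsα), abs_of_pos (inv_pos.2 hsβ), Real.sqrt_mul hα.le,
    mul_inv, Complex.real_smul, Complex.real_smul, ← mul_assoc]
  push_cast
  ring

/-! ## The radial integral -/

lemma integral_radial_complex (f : ℝ → ℂ) :
    ∫ z : ℂ, f ‖z‖ = ((2 * Real.pi : ℝ) : ℂ) * ∫ r in Set.Ioi (0 : ℝ), (r : ℂ) * f r := by
  have h := integral_fun_norm_addHaar (volume : Measure ℂ) f
  rw [h, Complex.finrank_real_complex]
  have hb : (volume : Measure ℂ).real (Metric.ball 0 1) = Real.pi := by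
    rw [Measure.real, Complex.volume_ball]
    simp
  rw [hb]
  have hint : ∫ y in Set.Ioi (0 : ℝ), y ^ (2 - 1) • f y
      = ∫ r in Set.Ioi (0 : ℝ), (r : ℂ) * f r := by
    apply integral_congr_ae
    filter_upwards with y
    simp [Complex.real_smul]
  rw [hint, Complex.real_smul]
  rw [show (2 : ℕ) • (((Real.pi : ℝ) : ℂ) * ∫ r in Set.Ioi (0 : ℝ), (r : ℂ) * f r)
      = (2 : ℂ) * (((Real.pi : ℝ) : ℂ) * ∫ r in Set.Ioi (0 : ℝ), (r : ℂ) * f r) from by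
    rw [nsmul_eq_mul]; norm_num]
  push_cast
  ring

/-! ## The substitution `X = √(A² + r²)` -/

lemma hasDerivAt_sqrt_add_sq {A : ℝ} (hA : 0 < A) (r : ℝ) :
    HasDerivAt (fun r : ℝ => Real.sqrt (A ^ 2 + r ^ 2)) (r / Real.sqrt (A ^ 2 + r ^ 2)) r := by
  have hpos : 0 < A ^ 2 + r ^ 2 := by positivity
  have h1 : HasDerivAt (fun r : ℝ => A ^ 2 + r ^ 2) (2 * r) r := by
    have := (hasDerivAt_pow 2 r).const_add (A ^ 2)
    simpa using this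
  have h2 := h1.sqrt hpos.ne'
  have e : 2 * r / (2 * Real.sqrt (A ^ 2 + r ^ 2)) = r / Real.sqrt (A ^ 2 + r ^ 2) := by
    have : Real.sqrt (A ^ 2 + r ^ 2) ≠ 0 := (Real.sqrt_pos.2 hpos).ne'
    field_simp
  rw [e] at h2
  exact h2

lemma sqrt_add_sq_lt {A r₁ r₂ : ℝ} (h₁ : 0 ≤ r₁) (h : r₁ < r₂) :
    Real.sqrt (A ^ 2 + r₁ ^ 2) < Real.sqrt (A ^ 2 + r₂ ^ 2) := by
  apply Real.sqrt_lt_sqrt (by positivity)
  nlinarith

lemma sqrt_add_sq_image {A : ℝ} (hA : 0 < A) :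
    (fun r : ℝ => Real.sqrt (A ^ 2 + r ^ 2)) '' Set.Ioi 0 = Set.Ioi A := by
  ext X
  constructor
  · rintro ⟨r, hr, rfl⟩
    have hr' : (0 : ℝ) < r := hr
    show A < Real.sqrt (A ^ 2 + r ^ 2)
    apply Real.lt_sqrt_of_sq_lt
    nlinarith
  · intro hX
    have hX' : A < X := hX
    have hpos : 0 < X ^ 2 - A ^ 2 := by nlinarith
    refine ⟨Real.sqrt (X ^ 2 - A ^ 2), Real.sqrt_pos.2 hpos, ?_⟩
    show Real.sqrt (A ^ 2 + Real.sqrt (X ^ 2 - A ^ 2) ^ 2) = X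
    rw [Real.sq_sqrt hpos.le]
    have : A ^ 2 + (X ^ 2 - A ^ 2) = X ^ 2 := by ring
    rw [this, Real.sqrt_sq (by linarith)]

lemma sqrt_add_sq_injOn (A : ℝ) :
    Set.InjOn (fun r : ℝ => Real.sqrt (A ^ 2 + r ^ 2)) (Set.Ioi 0) := by
  intro a ha b hb hab
  rcases lt_trichotomy a b with h | h | h
  · exact absurd hab (sqrt_add_sq_lt (le_of_lt ha) h).ne
  · exact h
  · exact absurd hab (sqrt_add_sq_lt (le_of_lt hb) h).ne'

lemma integral_subst (Φ : ℝ → ℂ) {A : ℝ} (hA : 0 < A) :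
    ∫ r in Set.Ioi (0 : ℝ), (r : ℂ) * hfun Φ A (r ^ 2) = ∫ X in Set.Ioi A, Φ X := by
  have h := integral_image_eq_integral_abs_deriv_smul (s := Set.Ioi (0 : ℝ))
    (f := fun r : ℝ => Real.sqrt (A ^ 2 + r ^ 2))
    (f' := fun r : ℝ => r / Real.sqrt (A ^ 2 + r ^ 2)) measurableSet_Ioi
    (fun r _ => (hasDerivAt_sqrt_add_sq hA r).hasDerivWithinAt) (sqrt_add_sq_injOn A) Φ
  rw [sqrt_add_sq_image hA] at h
  rw [h]
  apply setIntegral_congr_fun measurableSet_Ioi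
  intro r hr
  have hr' : (0 : ℝ) < r := hr
  have hs : 0 < Real.sqrt (A ^ 2 + r ^ 2) := sqrt_pos_of hA (sq_nonneg r)
  show (r : ℂ) * hfun Φ A (r ^ 2)
    = |r / Real.sqrt (A ^ 2 + r ^ 2)| • Φ (Real.sqrt (A ^ 2 + r ^ 2))
  rw [abs_of_pos (div_pos hr' hs), Complex.real_smul]
  unfold hfun
  push_cast
  ring

/-! ## The core -/

theorem radInt0_core501 (Φ : ℝ → ℂ) (hΦ : Continuous Φ) (hR : ∃ R : ℝ, ∀ X : ℝ, R < X → Φ X = 0)
    (A α β : ℝ) (hA : 0 < A) (hα : 0 < α) (hβ : 0 < β) :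
    (∫ x : ℝ, ∫ v : ℝ, Φ (Real.sqrt (A ^ 2 + α * x ^ 2 + β * v ^ 2)) /
        ((Real.sqrt (A ^ 2 + α * x ^ 2 + β * v ^ 2) : ℝ) : ℂ))
      = ((2 * Real.pi / Real.sqrt (α * β) : ℝ) : ℂ) * ∫ X in Set.Ioi A, Φ X := by
  obtain ⟨R₀, hR₀⟩ := hR
  -- a nonnegative bound
  obtain ⟨R, hR0, hR⟩ : ∃ R : ℝ, 0 ≤ R ∧ ∀ X : ℝ, R < X → Φ X = 0 :=
    ⟨max R₀ 0, le_max_right _ _, fun X hX => hR₀ X (lt_of_le_of_lt (le_max_left _ _) hX)⟩
  -- step 1: the integrand as a function of the rescaled variables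
  have e1 : ∀ x v : ℝ, Φ (Real.sqrt (A ^ 2 + α * x ^ 2 + β * v ^ 2)) /
        ((Real.sqrt (A ^ 2 + α * x ^ 2 + β * v ^ 2) : ℝ) : ℂ)
      = (fun y w : ℝ => hfun Φ A (y ^ 2 + w ^ 2)) (Real.sqrt α * x) (Real.sqrt β * v) := by
    intro x v
    show _ = hfun Φ A ((Real.sqrt α * x) ^ 2 + (Real.sqrt β * v) ^ 2)
    have : A ^ 2 + ((Real.sqrt α * x) ^ 2 + (Real.sqrt β * v) ^ 2)
        = A ^ 2 + α * x ^ 2 + β * v ^ 2 := by
      rw [mul_pow, mul_pow, Real.sq_sqrt hα.le, Real.sq_sqrt hβ.le]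
      ring
    unfold hfun
    rw [this]
  simp only [e1]
  rw [integral_rescale (fun y w : ℝ => hfun Φ A (y ^ 2 + w ^ 2)) hα hβ]
  -- step 2: Fubini
  have hc : Continuous (fun p : ℝ × ℝ => hfun Φ A (p.1 ^ 2 + p.2 ^ 2)) :=
    continuous_hfun_comp hΦ hA (by fun_prop) (fun p => by positivity)
  have hsupp : HasCompactSupport (fun p : ℝ × ℝ => hfun Φ A (p.1 ^ 2 + p.2 ^ 2)) := by
    apply HasCompactSupport.intro (isCompact_closedBall (0 : ℝ × ℝ) R)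
    intro p hp
    apply hfun_eq_zero hR _ hR0
    rw [Metric.mem_closedBall, dist_zero_right, not_le, Prod.norm_def] at hp
    rcases lt_max_iff.1 hp with h | h
    · rw [Real.norm_eq_abs] at h
      have : R ^ 2 < p.1 ^ 2 := by
        rw [← sq_abs p.1]
        exact pow_lt_pow_left₀ h hR0 (by norm_num)
      nlinarith [sq_nonneg p.2]
    · rw [Real.norm_eq_abs] at h
      have : R ^ 2 < p.2 ^ 2 := by
        rw [← sq_abs p.2]
        exact pow_lt_pow_left₀ h hR0 (by norm_num)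
      nlinarith [sq_nonneg p.1]
  have hint : Integrable (fun p : ℝ × ℝ => hfun Φ A (p.1 ^ 2 + p.2 ^ 2))
      ((volume : Measure ℝ).prod (volume : Measure ℝ)) := by
    rw [← Measure.volume_eq_prod]
    exact hc.integrable_of_hasCompactSupport hsupp
  have e2 : ∫ y : ℝ, ∫ w : ℝ, hfun Φ A (y ^ 2 + w ^ 2)
      = ∫ p : ℝ × ℝ, hfun Φ A (p.1 ^ 2 + p.2 ^ 2) := by
    rw [Measure.volume_eq_prod, integral_prod _ hint]
  -- step 3: to `ℂ`
  have e3 : ∫ p : ℝ × ℝ, hfun Φ A (p.1 ^ 2 + p.2 ^ 2)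
      = ∫ z : ℂ, (fun r : ℝ => hfun Φ A (r ^ 2)) ‖z‖ := by
    rw [← Complex.volume_preserving_equiv_real_prod.integral_comp'
      (g := fun p : ℝ × ℝ => hfun Φ A (p.1 ^ 2 + p.2 ^ 2))]
    apply integral_congr_ae
    filter_upwards with z
    show hfun Φ A (z.re ^ 2 + z.im ^ 2) = hfun Φ A (‖z‖ ^ 2)
    rw [Complex.sq_norm, Complex.normSq_apply]
    ring_nf
  have e4 := integral_radial_complex (fun r : ℝ => hfun Φ A (r ^ 2))
  have e5 := integral_subst Φ hA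
  rw [e2, e3, e4]
  show _ * (_ * ∫ r in Set.Ioi (0 : ℝ), (r : ℂ) * hfun Φ A (r ^ 2)) = _
  rw [e5, ← mul_assoc]
  congr 1
  push_cast
  rw [div_eq_mul_inv]
  ring

end Fermat.Agent.LT.H501.Rad

end
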