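import Mathlib
import Fermat.Agent.LT.T6.H626.AbelCut
import Fermat.Agent.LT.T6.H501.RadInt0Core

/-!
# Row LT, tower T6, sub-leaf T6.20a.7 `RadInt0C626` (helper501) — OFF-MAIN

`radInt0C501 : T6.H626.RadInt0C626`, verbatim (bytes of `T6/H626/AbelCut.lean`, helper626), from
the Mathlib-only core `radInt0_core501` (`RadInt0Core.lean`).
-/

set_option autoImplicit false

namespace Fermat.Agent.LT.H501.Rad

/-- **Sub-leaf T6.20a.7 `RadInt0C626`**, verbatim. -/
theorem radInt0C501 : Fermat.Agent.LT.T6.H626.RadInt0C626 :=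
  fun Φ hΦ hR A α β hA hα hβ => radInt0_core501 Φ hΦ hR A α β hA hα hβ

end Fermat.Agent.LT.H501.Rad
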